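import Mathlib

/-!
# GAL / CT / ID : certified truncated arithmetic for integer power series

`Approx n f l` : the first `n` coefficients of `f : ℤ⟦X⟧` are given by the list `l`.
The list operations are computable, so equalities between the resulting lists can be checked by the kernel
(`by decide +kernel`).
-/

set_option autoImplicit false

namespace Fermat.Agent.GAL.CT.ID

open PowerSeries

/-- the first `n` coefficients of `f` are given by the list `l`. -/
def Approx (n : ℕ) (f : PowerSeries ℤ) (l : List ℤ) : Prop :=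
  ∀ i < n, coeff i f = l.getD i 0

/-- truncated product. -/
def lmul (n : ℕ) (a b : List ℤ) : List ℤ :=
  (List.range n).map fun i => ((List.range (i + 1)).map fun j => a.getD j 0 * b.getD (i - j) 0).sum

/-- truncated sum. -/
def ladd (n : ℕ) (a b : List ℤ) : List ℤ :=
  (List.range n).map fun i => a.getD i 0 + b.getD i 0

/-- truncated difference. -/
def lsub (n : ℕ) (a b : List ℤ) : List ℤ :=
  (List.range n).map fun i => a.getD i 0 - b.getD i 0

/-- scalar multiple. -/
def lsmul (n : ℕ) (c : ℤ) (a : List ℤ) : List ℤ :=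
  (List.range n).map fun i => c * a.getD i 0

/-- multiplication by `X ^ k`. -/
def lshift (n k : ℕ) (a : List ℤ) : List ℤ :=
  (List.range n).map fun i => if k ≤ i then a.getD (i - k) 0 else 0

/-- substitution `X ↦ X ^ d`. -/
def lexpand (n d : ℕ) (a : List ℤ) : List ℤ :=
  (List.range n).map fun i => if d ∣ i then a.getD (i / d) 0 else 0

/-- truncated power. -/
def lpow (n : ℕ) (a : List ℤ) : ℕ → List ℤ
  | 0 => [1]
  | (k + 1) => lmul n (lpow n a k) a

theorem getD_map_range (n : ℕ) (F : ℕ → ℤ) {i : ℕ} (hi : i < n) :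
    ((List.range n).map F).getD i 0 = F i := by
  rw [List.getD_eq_getElem _ _ (by simpa using hi)]
  simp

theorem sum_map_range (m : ℕ) (F : ℕ → ℤ) :
    ((List.range m).map F).sum = ∑ k ∈ Finset.range m, F k := by
  induction m with
  | zero => simp
  | succ m ih => rw [List.range_succ, List.map_append, List.sum_append, ih, Finset.sum_range_succ]; simp

theorem Approx.mono {n m : ℕ} {f : PowerSeries ℤ} {l : List ℤ} (h : Approx n f l) (hm : m ≤ n) :
    Approx m f l := fun i hi => h i (lt_of_lt_of_le hi hm)

theorem Approx.mul {n : ℕ} {f g : PowerSeries ℤ} {a b : List ℤ} (hf : Approx n f a)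
    (hg : Approx n g b) : Approx n (f * g) (lmul n a b) := by
  intro i hi
  rw [lmul, getD_map_range n _ hi, coeff_mul, Finset.Nat.sum_antidiagonal_eq_sum_range_succ_mk,
    sum_map_range]
  refine Finset.sum_congr rfl fun k hk => ?_
  have hk' : k < i + 1 := Finset.mem_range.mp hk
  rw [hf k (by omega), hg (i - k) (by omega)]

theorem Approx.add {n : ℕ} {f g : PowerSeries ℤ} {a b : List ℤ} (hf : Approx n f a)
    (hg : Approx n g b) : Approx n (f + g) (ladd n a b) := by
  intro i hi
  rw [ladd, getD_map_range n _ hi, map_add, hf i hi, hg i hi]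

theorem Approx.sub {n : ℕ} {f g : PowerSeries ℤ} {a b : List ℤ} (hf : Approx n f a)
    (hg : Approx n g b) : Approx n (f - g) (lsub n a b) := by
  intro i hi
  rw [lsub, getD_map_range n _ hi, map_sub, hf i hi, hg i hi]

theorem Approx.smul {n : ℕ} {f : PowerSeries ℤ} {a : List ℤ} (c : ℤ) (hf : Approx n f a) :
    Approx n (C c * f) (lsmul n c a) := by
  intro i hi
  rw [lsmul, getD_map_range n _ hi, coeff_C_mul, hf i hi]

theorem Approx.shift {n : ℕ} {f : PowerSeries ℤ} {a : List ℤ} (k : ℕ) (hf : Approx n f a) :
    Approx n (X ^ k * f) (lshift n k a) := by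
  intro i hi
  rw [lshift, getD_map_range n _ hi, coeff_X_pow_mul']
  split_ifs with h
  · exact hf _ (by omega)
  · rfl

theorem Approx.expand {n : ℕ} {f : PowerSeries ℤ} {a : List ℤ} (d : ℕ) (hd : d ≠ 0)
    (hf : Approx n f a) : Approx n (f.expand d hd) (lexpand n d a) := by
  intro i hi
  rw [lexpand, getD_map_range n _ hi, coeff_expand]
  split_ifs with h
  · exact hf _ (lt_of_le_of_lt (Nat.div_le_self _ _) hi)
  · rfl

theorem approx_one (n : ℕ) : Approx n 1 [1] := by
  intro i _
  rcases i with _ | i
  · simp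
  · simp [coeff_one]

theorem Approx.pow {n : ℕ} {f : PowerSeries ℤ} {a : List ℤ} (hf : Approx n f a) (k : ℕ) :
    Approx n (f ^ k) (lpow n a k) := by
  induction k with
  | zero => simpa [lpow] using approx_one n
  | succ k ih => rw [pow_succ]; exact ih.mul hf

theorem Approx.congr {n : ℕ} {f : PowerSeries ℤ} {a b : List ℤ} (hf : Approx n f a) (h : a = b) :
    Approx n f b := h ▸ hf

theorem Approx.coeff_eq_zero {n : ℕ} {f : PowerSeries ℤ} (hf : Approx n f (List.replicate n 0)) :
    ∀ i < n, coeff i f = 0 := by
  intro i hi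
  rw [hf i hi, List.getD_eq_getElem _ _ (by simpa using hi)]
  simp

end Fermat.Agent.GAL.CT.ID
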