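import Mathlib
import Fermat.Prelude.Def_ModularCurve_X0
import Fermat.Agent.GAL.CT.ID.Trunc

/-!
# GAL / CT / ID : definitions (no sorry)

`IsQ N k g` : the integer power series `g` is the `q`-expansion of a modular form of weight `k` on `Γ₀(N)`.
-/

set_option autoImplicit false

open UpperHalfPlane ModularForm CongruenceSubgroup ModularCurve
open scoped MatrixGroups

noncomputable section

namespace Fermat.Agent.GAL.CT.ID

/-- `g ∈ ℤ⟦X⟧` is the `q`-expansion of a modular form of weight `k` on `Γ₀(N)`. -/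
def IsQ (N : ℕ) (k : ℤ) (g : PowerSeries ℤ) : Prop :=
  ∃ f : ModularForm (Gamma0 N) k, qExpansion 1 f = g.map (Int.castRingHom ℂ)

/-- `E₆ = 1 - 504 ∑ σ₅(n) qⁿ`. -/
def eisenstein6 : PowerSeries ℤ :=
  PowerSeries.mk fun n => if n = 0 then 1 else -504 * ∑ d ∈ n.divisors, (d : ℤ) ^ 5

/-- `Δ = q ∏ (1 - qⁿ)^24`. -/
def DeltaZ : PowerSeries ℤ := PowerSeries.X * dedekindEtaUnit

/-- `q d/dq` on power series. -/
def thetaP (f : PowerSeries ℤ) : PowerSeries ℤ := PowerSeries.X * PowerSeries.derivative ℤ f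

end Fermat.Agent.GAL.CT.ID

namespace Fermat.Agent.GAL.CT.ID

/-! ### computable coefficient lists -/

/-- `1 - X ^ m` modulo `X ^ n`. -/
def lfac (n m : ℕ) : List ℤ :=
  (List.range n).map fun i => if i = 0 then 1 else if i = m then -1 else 0

/-- `∏_{1 ≤ i ≤ m} (1 - X ^ i)` modulo `X ^ n`. -/
def letaAux (n : ℕ) : ℕ → List ℤ
  | 0 => [1]
  | (m + 1) => lmul n (letaAux n m) (lfac n (m + 1))

/-- `∏_{i ≥ 1} (1 - X ^ i)` modulo `X ^ n`. -/
def leta (n : ℕ) : List ℤ := letaAux n (n - 1)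

/-- the first 14 coefficients of `E₄`. -/
def e4L : List ℤ :=
  [1, 240, 2160, 6720, 17520, 30240, 60480, 82560, 140400, 181680, 272160, 319680, 490560, 527520]

/-- the first 14 coefficients of `E₆`. -/
def e6L : List ℤ :=
  [1, -504, -16632, -122976, -532728, -1575504, -4058208, -8471232, -17047800, -29883672,
    -51991632, -81170208, -129985632, -187132176]

end Fermat.Agent.GAL.CT.ID
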