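import Fermat.Agent.GAL.CT.ID.Defs

/-!
# GAL / CT / ID-A : the coefficient lists of `∏ (1 - X^n)`, `E₄`, `E₆`
-/

set_option autoImplicit false

open ModularCurve

namespace Fermat.Agent.GAL.CT.ID

open PowerSeries Filter Topology

/-- the partial products of `∏ (1 - X^n)`. -/
noncomputable def etaPart (m : ℕ) : PowerSeries ℤ :=
  ∏ k ∈ Finset.range m, ((1 : PowerSeries ℤ) - X ^ (k + 1))

theorem etaPart_succ (m : ℕ) : etaPart (m + 1) = etaPart m * (1 - X ^ (m + 1)) := by
  rw [etaPart, Finset.prod_range_succ]; rfl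

theorem coeff_etaPart_succ {i m : ℕ} (h : i ≤ m) :
    coeff i (etaPart (m + 1)) = coeff i (etaPart m) := by
  rw [etaPart_succ, mul_sub, mul_one, map_sub, coeff_mul_X_pow', if_neg (by omega), sub_zero]

theorem coeff_etaPart_of_le {i m m' : ℕ} (h : i ≤ m) (hm : m ≤ m') :
    coeff i (etaPart m') = coeff i (etaPart m) := by
  induction m', hm using Nat.le_induction with
  | base => rfl
  | succ k hk ih => rw [coeff_etaPart_succ (h.trans hk), ih]

theorem coeff_etaProd {i m : ℕ} (h : i ≤ m) : coeff i etaProd = coeff i (etaPart m) := by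
  open scoped PowerSeries.WithPiTopology in
  have h1 : Tendsto (fun N => ∏ k ∈ Finset.range N, ((1 : PowerSeries ℤ) - X ^ (k + 1)))
      atTop (𝓝 etaProd) :=
    (PowerSeries.WithPiTopology.multipliable_one_sub_X_pow ℤ).hasProd.tendsto_prod_nat
  have h3 := ((PowerSeries.WithPiTopology.continuous_coeff ℤ i).tendsto _).comp h1
  have h4 : Tendsto (fun N => coeff i (etaPart N)) atTop (𝓝 (coeff i (etaPart m))) := by
    refine tendsto_const_nhds.congr' ?_
    filter_upwards [eventually_ge_atTop m] with N hN
    exact (coeff_etaPart_of_le h hN).symm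
  exact tendsto_nhds_unique h3 h4

theorem approx_lfac (n m : ℕ) (hm : m ≠ 0) : Approx n (1 - X ^ m) (lfac n m) := by
  intro i hi
  rw [lfac, getD_map_range n _ hi, map_sub, coeff_one, coeff_X_pow]
  by_cases h0 : i = 0
  · subst h0
    rw [if_pos rfl, if_pos rfl, if_neg (Ne.symm hm), sub_zero]
  · rw [if_neg h0, if_neg h0]
    by_cases h1 : i = m
    · rw [if_pos h1, if_pos h1]; rfl
    · rw [if_neg h1, if_neg h1]; rfl

theorem approx_etaPart (n m : ℕ) : Approx n (etaPart m) (letaAux n m) := by
  induction m with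
  | zero => simpa [etaPart, letaAux] using approx_one n
  | succ m ih =>
    rw [etaPart_succ]
    exact ih.mul (approx_lfac n (m + 1) (Nat.succ_ne_zero m))

theorem approx_etaProd (n : ℕ) : Approx n etaProd (leta n) := by
  intro i hi
  rw [coeff_etaProd (show i ≤ n - 1 by omega)]
  exact approx_etaPart n (n - 1) i hi

theorem approx_E4 : Approx 14 eisenstein4 e4L := by
  intro i hi
  rw [eisenstein4, coeff_mk]
  interval_cases i <;> decide +kernel

theorem approx_E6 : Approx 14 eisenstein6 e6L := by
  intro i hi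
  rw [eisenstein6, coeff_mk]
  interval_cases i <;> decide +kernel

end Fermat.Agent.GAL.CT.ID
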