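import Mathlib
import Fermat.Agent.Lib.Gamma0Cosets.Index

/-!
# GAL / CT / ID-C : the index of `Γ₀(2)` and `Γ₀(3)`
-/

set_option autoImplicit false

open CongruenceSubgroup
open scoped MatrixGroups

namespace Fermat.Agent.GAL.CT.ID

theorem index_dedekindPsi_prime (p : ℕ) (hp : p.Prime) : ModularCurve.dedekindPsi p = p + 1 := by
  have h1 : ∀ d ∈ p.divisors, Squarefree d := by
    intro d hd
    rcases (Nat.dvd_prime hp).1 (Nat.dvd_of_mem_divisors hd) with rfl | rfl
    · exact squarefree_one
    · exact hp.prime.irreducible.squarefree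
  rw [ModularCurve.dedekindPsi, Finset.filter_true_of_mem h1, Nat.Prime.sum_divisors hp,
    Nat.div_one, Nat.div_self hp.pos, add_comm]

theorem index_Gamma0_one : (Gamma0 1).index = 1 := by
  rw [Subgroup.index, Fermat.Agent.Lib.Gamma0Cosets.card_quotient 1, ModularCurve.dedekindPsi_one]

theorem index_Gamma0_two : (Gamma0 2).index = 3 := by
  rw [Subgroup.index, Fermat.Agent.Lib.Gamma0Cosets.card_quotient 2,
    index_dedekindPsi_prime 2 Nat.prime_two]

theorem index_Gamma0_three : (Gamma0 3).index = 4 := by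
  rw [Subgroup.index, Fermat.Agent.Lib.Gamma0Cosets.card_quotient 3,
    index_dedekindPsi_prime 3 Nat.prime_three]

end Fermat.Agent.GAL.CT.ID
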