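import Fermat.Agent.GAL.CT.ID.Defs
import Fermat.Prelude.Thm_ModularForm_sturm_bound_Gamma0
import Fermat.Prelude.Thm_CongruenceSubgroup_one_mem_strictPeriods_Gamma0

/-!
# GAL / CT / ID-B : closure properties of `IsQ` and the Sturm bound
-/

set_option autoImplicit false

open UpperHalfPlane ModularForm CongruenceSubgroup ModularCurve
open scoped MatrixGroups

noncomputable section

namespace Fermat.Agent.GAL.CT.ID

variable {N : ℕ} {k k' : ℤ} {g g' : PowerSeries ℤ}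

theorem IsQ.add (h : IsQ N k g) (h' : IsQ N k g') : IsQ N k (g + g') := by
  obtain ⟨f, hf⟩ := h
  obtain ⟨f', hf'⟩ := h'
  refine ⟨f + f', ?_⟩
  rw [FunLike.coe_add, ModularForm.qExpansion_add one_pos (one_mem_strictPeriods_Gamma0 N) f f',
    hf, hf', map_add]

theorem IsQ.sub (h : IsQ N k g) (h' : IsQ N k g') : IsQ N k (g - g') := by
  obtain ⟨f, hf⟩ := h
  obtain ⟨f', hf'⟩ := h'
  refine ⟨f - f', ?_⟩
  rw [FunLike.coe_sub, ModularForm.qExpansion_sub one_pos (one_mem_strictPeriods_Gamma0 N) f f',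
    hf, hf', map_sub]

theorem IsQ.C_mul (c : ℤ) (h : IsQ N k g) : IsQ N k (PowerSeries.C c * g) := by
  obtain ⟨f, hf⟩ := h
  refine ⟨(c : ℂ) • f, ?_⟩
  have h1 : (⇑((c : ℂ) • f) : ℍ → ℂ) = (c : ℂ) • (⇑f : ℍ → ℂ) := rfl
  rw [h1, ModularForm.qExpansion_smul one_pos (one_mem_strictPeriods_Gamma0 N) (c : ℂ) f, hf,
    map_mul, PowerSeries.map_C, PowerSeries.smul_eq_C_mul]
  rfl

theorem IsQ.mul (h : IsQ N k g) (h' : IsQ N k' g') : IsQ N (k + k') (g * g') := by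
  obtain ⟨f, hf⟩ := h
  obtain ⟨f', hf'⟩ := h'
  refine ⟨f.mul f', ?_⟩
  rw [ModularForm.qExpansion_mul one_pos (one_mem_strictPeriods_Gamma0 N) f f', hf, hf', map_mul]

theorem IsQ.pow (h : IsQ N k g) (n : ℕ) : IsQ N (n * k) (g ^ n) := by
  obtain ⟨f, hf⟩ := h
  refine ⟨f.pow n, ?_⟩
  rw [ModularForm.qExpansion_pow one_pos (one_mem_strictPeriods_Gamma0 N) f n, hf, map_pow]

theorem IsQ.congr_weight (h : IsQ N k g) (hk : k = k') : IsQ N k' g := hk ▸ h

/-- Sturm bound. -/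
theorem IsQ.eq_zero [NeZero N] (h : IsQ N k g) (B : ℕ)
    (hB : (k * (Gamma0 N).index).toNat / 12 ≤ B) (h0 : ∀ n ≤ B, PowerSeries.coeff n g = 0) :
    g = 0 := by
  obtain ⟨f, hf⟩ := h
  have hf0 : f = 0 := by
    apply ModularForm.sturm_bound_Gamma0 N f
    intro n hn
    rw [hf, PowerSeries.coeff_map, h0 n (hn.trans hB), map_zero]
  have h1 : g.map (Int.castRingHom ℂ) = 0 := by
    rw [← hf, hf0]
    exact qExpansion_zero 1
  ext n
  have h2 := congrArg (PowerSeries.coeff n) h1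
  rw [PowerSeries.coeff_map, map_zero] at h2
  rw [map_zero]
  exact Int.cast_eq_zero.mp h2

end Fermat.Agent.GAL.CT.ID
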