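import Fermat.Agent.GAL.CT.ID.Defs
import Fermat.Agent.S24.Mod.QExpJ
import Fermat.Agent.S24.Mod.QExpDelta

/-!
# GAL / CT / ID-D : `E₄`, `E₆`, `Δ` as modular forms on `Γ₀(N)` with their integral `q`-expansions
-/

set_option autoImplicit false

open UpperHalfPlane ModularForm CongruenceSubgroup ModularCurve
open scoped MatrixGroups

noncomputable section

namespace Fermat.Agent.GAL.CT.ID

theorem levelOne_map_le (N : ℕ) :
    (Gamma0 N).map (Matrix.SpecialLinearGroup.mapGL ℝ) ≤ 𝒮ℒ := by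
  rintro _ ⟨γ, -, rfl⟩
  exact ⟨γ, rfl⟩

/-- a modular form of level one, restricted to `Γ₀(N)`. -/
def levelOneRes (N : ℕ) {k : ℤ} (f : ModularForm 𝒮ℒ k) :
    ModularForm (Gamma0 N) k where
  toFun := f
  slash_action_eq' γ hγ := SlashInvariantFormClass.slash_action_eq f γ (levelOne_map_le N hγ)
  holo' := ModularFormClass.holo f
  bdd_at_cusps' hc := ModularFormClass.bdd_at_cusps f (hc.mono (levelOne_map_le N))

@[simp] theorem coe_levelOneRes (N : ℕ) {k : ℤ}
    (f : ModularForm 𝒮ℒ k) : ⇑(levelOneRes N f) = ⇑f := rfl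

/-- a cusp form of level one, as a modular form on `Γ₀(N)`. -/
def levelOneResCusp (N : ℕ) {k : ℤ} (f : CuspForm 𝒮ℒ k) :
    ModularForm (Gamma0 N) k where
  toFun := f
  slash_action_eq' γ hγ := SlashInvariantFormClass.slash_action_eq f γ (levelOne_map_le N hγ)
  holo' := CuspFormClass.holo f
  bdd_at_cusps' hc := ModularFormClass.bdd_at_cusps f (hc.mono (levelOne_map_le N))

@[simp] theorem coe_levelOneResCusp (N : ℕ) {k : ℤ}
    (f : CuspForm 𝒮ℒ k) : ⇑(levelOneResCusp N f) = ⇑f := rfl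

theorem isQ_E4 (N : ℕ) : IsQ N 4 eisenstein4 :=
  ⟨levelOneRes N E₄, by rw [coe_levelOneRes]; exact S24.qExpansion_E4⟩

/-- from `EisensteinSeries.E_qExpansion_coeff` with `bernoulli 6 = 1/42`. -/
theorem qExpansion_E6 : qExpansion 1 (E₆ : ℍ → ℂ) = eisenstein6.map (Int.castRingHom ℂ) := by
  ext m
  rw [EisensteinSeries.E_qExpansion_coeff _ ⟨3, rfl⟩, PowerSeries.coeff_map, eisenstein6,
    PowerSeries.coeff_mk]
  split_ifs with h
  · simp
  · rw [show bernoulli 6 = 1 / 42 by decide +kernel, ArithmeticFunction.sigma_apply]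
    push_cast
    norm_num

theorem isQ_E6 (N : ℕ) : IsQ N 6 eisenstein6 :=
  ⟨levelOneRes N E₆, by rw [coe_levelOneRes]; exact qExpansion_E6⟩

theorem isQ_Delta (N : ℕ) : IsQ N 12 DeltaZ := by
  refine ⟨levelOneResCusp N CuspForm.discriminant, ?_⟩
  rw [coe_levelOneResCusp]
  have h : (⇑CuspForm.discriminant : ℍ → ℂ) = ModularForm.discriminant := rfl
  rw [h, S24.qExpansion_discriminant, DeltaZ, map_mul, PowerSeries.map_X]

end Fermat.Agent.GAL.CT.ID
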