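import Fermat.Agent.GAL.CT.ID.Defs
import Fermat.Agent.S24.Mod.Ramanujan
import Fermat.Agent.S24.Mod.QExpJ
import Fermat.Agent.S24.Mod.QExpDelta

/-!
# GAL / CT / ID-F : the formal Ramanujan identity `3 Δ θE₄ - E₄ θΔ + E₆ Δ = 0`

`ramaTay c` is the Taylor series at `0` of a germ `c : ℂ → ℂ`; `qExpansion 1 F = ramaTay (cuspFunction 1 F)`
by definition.  `ramaTay` is multiplicative/additive on analytic germs, `ramaTay (deriv c) = (ramaTay c)'`.
The analytic identity `3 Δ · D E₄ - E₄ · D Δ + E₆ Δ = 0` (from `S24.ramanujan_E4`,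
`S24.ramanujan_discriminant`) and `D F z = q c_F'(q)` give the vanishing of an analytic germ.
-/

set_option autoImplicit false

open UpperHalfPlane ModularForm ModularCurve

noncomputable section

namespace Fermat.Agent.GAL.CT.ID

open Fermat.Agent.S24 Function Filter Topology

local notation "Δ" => ModularForm.discriminant
local notation "𝕢" => Periodic.qParam

/-- Taylor series at `0`. -/
def ramaTay (c : ℂ → ℂ) : PowerSeries ℂ :=
  .mk fun m ↦ (↑m.factorial)⁻¹ * iteratedDeriv m c 0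

lemma ramaTay_coeff (c : ℂ → ℂ) (m : ℕ) :
    (ramaTay c).coeff m = (↑m.factorial)⁻¹ * iteratedDeriv m c 0 := by
  simp [ramaTay]

lemma qExpansion_eq_ramaTay (F : ℍ → ℂ) : qExpansion 1 F = ramaTay (cuspFunction 1 F) := rfl

lemma ramaTay_congr {c c' : ℂ → ℂ} (h : c =ᶠ[𝓝 0] c') : ramaTay c = ramaTay c' := by
  ext m
  rw [ramaTay_coeff, ramaTay_coeff, h.iteratedDeriv_eq m]

lemma ramaTay_zero : ramaTay (fun _ => 0) = 0 := by
  ext m
  rw [ramaTay_coeff]
  have : iteratedDeriv m (fun _ : ℂ => (0 : ℂ)) 0 = 0 := by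
    rcases m with _ | m
    · simp
    · simp
  rw [this]
  simp

lemma ramaTay_mul {c c' : ℂ → ℂ} (hf : AnalyticAt ℂ c 0) (hg : AnalyticAt ℂ c' 0) :
    ramaTay (c * c') = ramaTay c * ramaTay c' := by
  ext
  simp only [ramaTay_coeff,
    iteratedDeriv_mul hf.contDiffAt hg.contDiffAt, Finset.mul_sum, PowerSeries.coeff_mul,
    Finset.Nat.sum_antidiagonal_eq_sum_range_succ_mk, Nat.succ_eq_add_one]
  refine Finset.sum_congr rfl fun i hi ↦ ?_
  rw [Nat.cast_choose _ (by grind)]
  field_simp [Nat.factorial_ne_zero]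

lemma ramaTay_add {c c' : ℂ → ℂ} (hf : AnalyticAt ℂ c 0) (hg : AnalyticAt ℂ c' 0) :
    ramaTay (c + c') = ramaTay c + ramaTay c' := by
  ext m
  simp [ramaTay_coeff, iteratedDeriv_add hf.contDiffAt hg.contDiffAt, mul_add]

lemma ramaTay_sub {c c' : ℂ → ℂ} (hf : AnalyticAt ℂ c 0) (hg : AnalyticAt ℂ c' 0) :
    ramaTay (c - c') = ramaTay c - ramaTay c' := by
  ext m
  simp [ramaTay_coeff, iteratedDeriv_sub hf.contDiffAt hg.contDiffAt, mul_sub]

lemma ramaTay_deriv (c : ℂ → ℂ) : ramaTay (deriv c) = PowerSeries.derivative ℂ (ramaTay c) := by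
  ext m
  rw [PowerSeries.coeff_derivative, ramaTay_coeff, ramaTay_coeff, ← iteratedDeriv_succ',
    Nat.factorial_succ]
  have h1 : (m.factorial : ℂ) ≠ 0 := by exact_mod_cast m.factorial_ne_zero
  have h2 : ((m : ℂ) + 1) ≠ 0 := by exact_mod_cast (Nat.succ_ne_zero m)
  push_cast
  field_simp

lemma ramaTay_id : ramaTay (fun q => q) = PowerSeries.X := by
  ext m
  rw [ramaTay_coeff, PowerSeries.coeff_X]
  rcases m with _ | _ | m
  · simp
  · simp [iteratedDeriv_one]
  · have : iteratedDeriv (m + 1 + 1) (fun q : ℂ => q) 0 = 0 := by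
      rw [iteratedDeriv_succ', iteratedDeriv_succ']
      have h1 : deriv (fun q : ℂ => q) = fun _ => 1 := by
        funext q; simp
      rw [h1]
      simp
    rw [this]
    simp

lemma ramaTay_const (a : ℂ) : ramaTay (fun _ => a) = PowerSeries.C a := by
  ext m
  rw [ramaTay_coeff, PowerSeries.coeff_C]
  rcases m with _ | m
  · simp
  · simp [iteratedDeriv_const]

theorem rama_qExpansion_E6 : qExpansion 1 (E₆ : ℍ → ℂ) = eisenstein6.map (Int.castRingHom ℂ) := by
  ext m
  rw [EisensteinSeries.E_qExpansion_coeff _ ⟨3, rfl⟩, PowerSeries.coeff_map, eisenstein6,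
    PowerSeries.coeff_mk]
  split_ifs with h
  · simp
  · rw [show bernoulli 6 = 1 / 42 by decide +kernel, ArithmeticFunction.sigma_apply]
    push_cast
    norm_num

open Derivative in
/-- the pointwise identity. -/
theorem rama_pointwise (z : ℍ) :
    3 * Δ z * D (E₄ : ℍ → ℂ) z - E₄ z * D Δ z + E₆ z * Δ z = 0 := by
  rw [ramanujan_E4, ramanujan_discriminant]
  ring

theorem rama_cuspFunction_discriminant_zero : cuspFunction 1 Δ 0 = 0 := by
  have h := qExpansion_coeff (h := 1) Δ 0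
  rw [qExpansion_discriminant] at h
  simpa using h.symm

/-- the germ identity. -/
theorem rama_germ :
    (fun q : ℂ => 3 * cuspFunction 1 Δ q * (q * deriv (cuspFunction 1 (E₄ : ℍ → ℂ)) q)
      - cuspFunction 1 (E₄ : ℍ → ℂ) q * (q * deriv (cuspFunction 1 Δ) q)
      + cuspFunction 1 (E₆ : ℍ → ℂ) q * cuspFunction 1 Δ q) =ᶠ[𝓝 0] fun _ => 0 := by
  filter_upwards [Metric.ball_mem_nhds (0 : ℂ) one_pos] with q hq
  rw [mem_ball_zero_iff] at hq
  by_cases hq0 : q = 0
  · subst hq0
    rw [rama_cuspFunction_discriminant_zero]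
    ring
  · have h1 := Periodic.im_invQParam_pos_of_norm_lt_one one_pos hq hq0
    let z : ℍ := ⟨Periodic.invQParam 1 q, h1⟩
    have hz : 𝕢 1 (z : ℂ) = q := Periodic.qParam_right_inv one_ne_zero hq0
    have e4 := eq_cuspFunction z one_ne_zero isNice_E4.per
    have e6 := eq_cuspFunction z one_ne_zero isNice_E6.per
    have eD := eq_cuspFunction z one_ne_zero isNice_discriminant_one.per
    have d4 := isNice_E4.normalizedDeriv_eq z
    have dD := isNice_discriminant_one.normalizedDeriv_eq z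
    have key := rama_pointwise z
    rw [d4, dD, ← e4, ← e6, ← eD, hz] at key
    exact key

theorem rama_complex :
    3 * qExpansion 1 Δ * (PowerSeries.X * PowerSeries.derivative ℂ (qExpansion 1 (E₄ : ℍ → ℂ)))
      - qExpansion 1 (E₄ : ℍ → ℂ) * (PowerSeries.X * PowerSeries.derivative ℂ (qExpansion 1 Δ))
      + qExpansion 1 (E₆ : ℍ → ℂ) * qExpansion 1 Δ = 0 := by
  have a4 : AnalyticAt ℂ (cuspFunction 1 (E₄ : ℍ → ℂ)) 0 :=
    analyticAt_cuspFunction_zero one_pos isNice_E4.per isNice_E4.holo isNice_E4.bdd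
  have a6 : AnalyticAt ℂ (cuspFunction 1 (E₆ : ℍ → ℂ)) 0 :=
    analyticAt_cuspFunction_zero one_pos isNice_E6.per isNice_E6.holo isNice_E6.bdd
  have aD : AnalyticAt ℂ (cuspFunction 1 Δ) 0 :=
    analyticAt_cuspFunction_zero one_pos isNice_discriminant_one.per isNice_discriminant_one.holo
      isNice_discriminant_one.bdd
  have aid : AnalyticAt ℂ (fun q : ℂ => q) 0 := analyticAt_id
  have a3 : AnalyticAt ℂ (fun _ : ℂ => (3 : ℂ)) 0 := analyticAt_const
  have h := ramaTay_congr rama_germ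
  rw [ramaTay_zero] at h
  have hfun : (fun q : ℂ => 3 * cuspFunction 1 Δ q * (q * deriv (cuspFunction 1 (E₄ : ℍ → ℂ)) q)
      - cuspFunction 1 (E₄ : ℍ → ℂ) q * (q * deriv (cuspFunction 1 Δ) q)
      + cuspFunction 1 (E₆ : ℍ → ℂ) q * cuspFunction 1 Δ q)
      = ((fun _ : ℂ => (3 : ℂ)) * cuspFunction 1 Δ)
          * ((fun q : ℂ => q) * deriv (cuspFunction 1 (E₄ : ℍ → ℂ)))
        - cuspFunction 1 (E₄ : ℍ → ℂ) * ((fun q : ℂ => q) * deriv (cuspFunction 1 Δ))
        + cuspFunction 1 (E₆ : ℍ → ℂ) * cuspFunction 1 Δ := by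
    funext q
    simp only [Pi.add_apply, Pi.sub_apply, Pi.mul_apply]
  rw [hfun, ramaTay_add (((a3.mul aD).mul (aid.mul a4.deriv)).sub (a4.mul (aid.mul aD.deriv)))
      (a6.mul aD),
    ramaTay_sub ((a3.mul aD).mul (aid.mul a4.deriv)) (a4.mul (aid.mul aD.deriv)),
    ramaTay_mul (a3.mul aD) (aid.mul a4.deriv), ramaTay_mul a3 aD, ramaTay_mul aid a4.deriv,
    ramaTay_mul a4 (aid.mul aD.deriv), ramaTay_mul aid aD.deriv, ramaTay_mul a6 aD, ramaTay_deriv, ramaTay_deriv,
    ramaTay_id, ramaTay_const] at h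
  have h3 : (PowerSeries.C (3 : ℂ)) = 3 := by
    rw [show (3 : ℂ) = ((3 : ℕ) : ℂ) by norm_num, map_natCast]
    norm_num
  rw [h3] at h
  exact h

lemma rama_map_derivative_int (f : PowerSeries ℤ) :
    (PowerSeries.derivative ℤ f).map (Int.castRingHom ℂ)
      = PowerSeries.derivative ℂ (f.map (Int.castRingHom ℂ)) := by
  ext m
  simp [PowerSeries.coeff_derivative]

theorem rama :
    3 * DeltaZ * thetaP eisenstein4 - eisenstein4 * thetaP DeltaZ + eisenstein6 * DeltaZ = 0 := by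
  have hinj : Function.Injective (PowerSeries.map (Int.castRingHom ℂ)) :=
    PowerSeries.map_injective _ Int.cast_injective
  apply hinj
  have hD : qExpansion 1 Δ = DeltaZ.map (Int.castRingHom ℂ) := by
    rw [qExpansion_discriminant, DeltaZ, map_mul, PowerSeries.map_X]
  have h := rama_complex
  rw [hD, qExpansion_E4, rama_qExpansion_E6] at h
  simp only [thetaP, map_add, map_sub, map_mul, map_zero, PowerSeries.map_X, rama_map_derivative_int,
    map_ofNat]
  exact h

end Fermat.Agent.GAL.CT.ID
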