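import Fermat.Agent.GAL.CT.ID.Defs
import Fermat.Agent.S24.Mod.QExpDelta
import Fermat.Agent.S24.Mod.Scale

/-!
# GAL / CT / ID-E : `Δ(Nτ)` is a modular form of weight 12 on `Γ₀(N)` with `q`-expansion `Δ(q^N)`
-/

set_option autoImplicit false

open UpperHalfPlane ModularForm CongruenceSubgroup ModularCurve
open scoped MatrixGroups

noncomputable section

namespace Fermat.Agent.GAL.CT.ID

open Fermat.Agent.S23.Prim Fermat.Agent.S24

/-- `τ ↦ Δ(Nτ)` as a modular form of weight `12` on `Γ₀(N)`. -/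
def DeltaV (N : ℕ) [NeZero N] : ModularForm (Gamma0 N) 12 :=
  ((N : ℂ) ^ 11)⁻¹ • restrictLE (Gamma0_le_conj N)
    (ModularForm.translate CuspForm.discriminant (heckeDiagMatrix N))

theorem DeltaV_apply (N : ℕ) [NeZero N] (τ : ℍ) :
    DeltaV N τ = ModularForm.discriminant (scaleH N τ) := by
  have hN : (N : ℂ) ≠ 0 := by exact_mod_cast NeZero.ne N
  have h1 : DeltaV N τ = ((N : ℂ) ^ 11)⁻¹ *
      ((⇑CuspForm.discriminant) ∣[(12 : ℤ)] heckeDiagMatrix N) τ := rfl
  rw [h1, slash_heckeDiagMatrix_apply _ (NeZero.ne N), Her.scaleH_eq_smul,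
    CuspForm.coe_discriminant]
  norm_num
  field_simp

theorem coe_DeltaV (N : ℕ) [NeZero N] :
    ⇑(DeltaV N) = fun τ => ModularForm.discriminant (scaleH N τ) :=
  funext (DeltaV_apply N)

theorem isQ_Delta_expand (N : ℕ) (hN : N ≠ 0) : IsQ N 12 (DeltaZ.expand N hN) := by
  have : NeZero N := ⟨hN⟩
  refine ⟨DeltaV N, ?_⟩
  ext n
  have h1 := qExpansion_comp_scaleH 1 N isNice_discriminant_one n
  rw [Nat.cast_one, one_mul] at h1
  rw [coe_DeltaV, h1, PowerSeries.coeff_map, PowerSeries.coeff_expand, qExpansion_discriminant,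
    DeltaZ]
  split_ifs with h
  · rw [← PowerSeries.coeff_map, (PowerSeries.map (Int.castRingHom ℂ)).map_mul, PowerSeries.map_X]
  · simp

end Fermat.Agent.GAL.CT.ID
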